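import Mathlib.NumberTheory.FunctionField
import Mathlib.FieldTheory.RatFunc.Valuation
import Mathlib.FieldTheory.Minpoly.IsIntegrallyClosed
import Mathlib.RingTheory.Valuation.Integral

/-!
# The two rings of a function field and its constants

`Twisted F L` is `L` over `F(u)` by `u ↦ 1/u`. An element integral over `F[u]` and over `F[1/u]`
has its minimal polynomial over `F`, so there are finitely many for finite `F`.
-/

set_option autoImplicit false
set_option linter.unusedSectionVars false
set_option linter.style.haveILetI false

noncomputable section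

open Polynomial
open scoped Classical nonZeroDivisors

namespace FA.FunctionFieldMW

variable {F : Type*} [Field F]

theorem transcendental_invX : Transcendental F (RatFunc.X⁻¹ : RatFunc F) := fun h =>
  RatFunc.transcendental_X (K := F) (by simpa using h.inv)

/-- `u ↦ 1 / u`. -/
def flipHom (F : Type*) [Field F] : RatFunc F →+* RatFunc F :=
  RatFunc.liftRingHom (Polynomial.aeval (RatFunc.X⁻¹ : RatFunc F)).toRingHom
    (nonZeroDivisors_le_comap_nonZeroDivisors_of_injective _
      (transcendental_iff_injective.1 transcendental_invX))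

theorem flipHom_algebraMap (g : F[X]) :
    flipHom F (algebraMap F[X] (RatFunc F) g) = Polynomial.aeval (RatFunc.X⁻¹ : RatFunc F) g := by
  simp [flipHom, RatFunc.liftRingHom_apply, RatFunc.num_algebraMap, RatFunc.denom_algebraMap]

theorem flipHom_flipHom (x : RatFunc F) : flipHom F (flipHom F x) = x := by
  have h : (flipHom F).comp (flipHom F) = RingHom.id _ := by
    refine IsLocalization.ringHom_ext F[X]⁰ (Polynomial.ringHom_ext (fun a => ?_) ?_)
    · have hC : flipHom F (RatFunc.C a) = RatFunc.C a := by
        rw [← RatFunc.algebraMap_C, flipHom_algebraMap, Polynomial.aeval_C]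
        rfl
      simp only [RingHom.comp_apply, RatFunc.algebraMap_C, RingHom.id_apply, hC]
    · simp only [RingHom.comp_apply, flipHom_algebraMap, Polynomial.aeval_X, map_inv₀,
        RingHom.id_apply]
      rw [← RatFunc.algebraMap_X, flipHom_algebraMap, Polynomial.aeval_X, RatFunc.algebraMap_X,
        inv_inv]
  exact RingHom.congr_fun h x

/-- `u ↦ 1 / u` as an automorphism. -/
def flipEquiv (F : Type*) [Field F] : RatFunc F ≃+* RatFunc F :=
  { flipHom F with
    invFun := flipHom F
    left_inv := flipHom_flipHom
    right_inv := flipHom_flipHom }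

theorem inftyValuation_flip_le (g : F[X]) :
    RatFunc.inftyValuation F (flipHom F (algebraMap F[X] (RatFunc F) g)) ≤ 1 := by
  rw [flipHom_algebraMap]
  induction g using Polynomial.induction_on' with
  | add a b ha hb =>
    rw [map_add]
    exact (Valuation.map_add _ _ _).trans (max_le ha hb)
  | monomial n a =>
    rw [Polynomial.aeval_monomial, map_mul, map_pow]
    refine mul_le_one' ?_ (pow_le_one' ?_ n)
    · rcases eq_or_ne a 0 with rfl | ha
      · simp
      · exact (RatFunc.inftyValuation.C (F := F) ha).le
    · rw [inv_eq_one_div, RatFunc.inftyValuation.X_inv, ← WithZero.exp_zero]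
      exact WithZero.exp_le_exp.2 (by norm_num)

theorem exists_C_of_both {c : RatFunc F} {a b : F[X]}
    (ha : algebraMap F[X] (RatFunc F) a = c) (hb : flipHom F (algebraMap F[X] (RatFunc F) b) = c) :
    ∃ e : F, RatFunc.C e = c := by
  rcases eq_or_ne a 0 with rfl | h0
  · exact ⟨0, by rw [← ha]; simp⟩
  have h := inftyValuation_flip_le b
  rw [hb, ← ha, RatFunc.inftyValuation_apply, RatFunc.inftyValuation.polynomial (F := F) h0, ← WithZero.exp_zero,
    WithZero.exp_le_exp] at h
  refine ⟨a.coeff 0, ?_⟩
  rw [← ha, ← RatFunc.algebraMap_C, ← eq_C_of_natDegree_le_zero (by omega : a.natDegree ≤ 0)]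

/-- `L` over `F(u)` by `u ↦ 1 / u`. -/
def Twisted (F L : Type*) [Field F] : Type _ := L

variable {L : Type*} [Field L] [Algebra (RatFunc F) L]

instance : Field (Twisted F L) := inferInstanceAs (Field L)

instance : Algebra (RatFunc F) (Twisted F L) :=
  ((algebraMap (RatFunc F) L).comp (flipHom F)).toAlgebra

instance : Algebra F[X] (Twisted F L) :=
  (((algebraMap (RatFunc F) L).comp (flipHom F)).comp (algebraMap F[X] (RatFunc F))).toAlgebra

instance : IsScalarTower F[X] (RatFunc F) (Twisted F L) :=
  IsScalarTower.of_algebraMap_eq fun _ => rfl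

instance [FiniteDimensional (RatFunc F) L] : FiniteDimensional (RatFunc F) (Twisted F L) :=
  Module.Finite.of_equiv_equiv (flipEquiv F).symm (RingEquiv.refl L) (by
    refine RingHom.ext fun x => ?_
    show algebraMap (RatFunc F) L (flipHom F (flipHom F x)) = algebraMap (RatFunc F) L x
    rw [flipHom_flipHom])

instance [Algebra.IsSeparable (RatFunc F) L] : Algebra.IsSeparable (RatFunc F) (Twisted F L) :=
  Algebra.IsSeparable.of_equiv_equiv (flipEquiv F).symm (RingEquiv.refl L) (by
    refine RingHom.ext fun x => ?_
    show algebraMap (RatFunc F) L (flipHom F (flipHom F x)) = algebraMap (RatFunc F) L x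
    rw [flipHom_flipHom])

/-- The identity map into the twist. -/
def tw : L ≃+* Twisted F L := RingEquiv.refl L

variable [Algebra F[X] L] [IsScalarTower F[X] (RatFunc F) L]

/-- The constants are finitely many. -/
theorem finite_integral_both [Finite F] [FiniteDimensional (RatFunc F) L] :
    {x : L | IsIntegral F[X] x ∧ IsIntegral F[X] (tw (F := F) x)}.Finite := by
  set d := Module.finrank (RatFunc F) L
  have hpoly : {g : F[X] | g.natDegree ≤ d}.Finite := by
    refine Set.Finite.of_finite_image (f := fun g => fun i : Fin (d + 1) => g.coeff i)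
      (Set.toFinite _) ?_
    intro g hg h hh e
    ext n
    rcases Nat.lt_or_ge n (d + 1) with hn | hn
    · exact congrFun e ⟨n, hn⟩
    · rw [coeff_eq_zero_of_natDegree_lt (lt_of_le_of_lt hg hn),
        coeff_eq_zero_of_natDegree_lt (lt_of_le_of_lt hh hn)]
  refine (hpoly.biUnion fun g _ =>
    ((g.map (RatFunc.C (K := F))).map (algebraMap (RatFunc F) L)).roots.toFinset.finite_toSet).subset ?_
  rintro x ⟨h1, h2⟩
  have hxK : IsIntegral (RatFunc F) x := IsIntegral.of_finite _ x
  set P := minpoly (RatFunc F) x
  have hirr : Irreducible P := minpoly.irreducible hxK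
  have hP1 : P = (minpoly F[X] x).map (algebraMap F[X] (RatFunc F)) :=
    minpoly.isIntegrallyClosed_eq_field_fractions' (RatFunc F) h1
  have hP2 : P.map (flipHom F) =
      (minpoly F[X] (tw (F := F) x)).map (algebraMap F[X] (RatFunc F)) := by
    rw [← minpoly.isIntegrallyClosed_eq_field_fractions' (RatFunc F) h2]
    refine minpoly.eq_of_irreducible_of_monic ?_ ?_ ((minpoly.monic hxK).map _)
    · exact (MulEquiv.irreducible_iff (f := Polynomial.mapEquiv (flipEquiv F))).2 hirr
    · rw [Polynomial.aeval_def, Polynomial.eval₂_map]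
      show Polynomial.eval₂ (((algebraMap (RatFunc F) L).comp (flipHom F)).comp (flipHom F)) x P = 0
      rw [show ((algebraMap (RatFunc F) L).comp (flipHom F)).comp (flipHom F) =
        algebraMap (RatFunc F) L from RingHom.ext fun z => congrArg _ (flipHom_flipHom z),
        ← Polynomial.aeval_def, minpoly.aeval]
  have hlift : P ∈ Polynomial.lifts (RatFunc.C (K := F)) := (lifts_iff_coeff_lifts P).2 fun n => by
    refine exists_C_of_both (a := (minpoly F[X] x).coeff n)
      (b := (minpoly F[X] (tw (F := F) x)).coeff n) (by rw [hP1, coeff_map]) ?_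
    have := congrArg (fun Q : (RatFunc F)[X] => flipHom F (Q.coeff n)) hP2
    simp only [coeff_map, flipHom_flipHom] at this
    exact this.symm
  obtain ⟨g, hg⟩ := (Polynomial.mem_lifts P).1 hlift
  refine Set.mem_biUnion (x := g) ?_ ?_
  · show g.natDegree ≤ d
    rw [← natDegree_map_eq_of_injective (RatFunc.C (K := F)).injective g, hg]
    exact minpoly.natDegree_le x
  · rw [Finset.mem_coe, Multiset.mem_toFinset, mem_roots (by
      rw [Polynomial.map_ne_zero_iff (RingHom.injective _), hg]
      exact minpoly.ne_zero hxK), IsRoot, eval_map, hg]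
    exact minpoly.aeval (RatFunc F) x

end FA.FunctionFieldMW
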