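import Fermat.Agent.FunctionFieldRank.TwoClass
import Fermat.Agent.Frob.VarChange
import Mathlib.LinearAlgebra.Matrix.Notation
import Mathlib.Data.Fintype.Pi

/-!
# Two-descent on `y² = (x - e₁) (x - e₂) (x - e₃)`

For each root `e` the square class of `x - e` is additive; where all three are trivial the point
is twice another.
-/

set_option autoImplicit false
set_option linter.unusedSectionVars false
set_option linter.style.haveILetI false

noncomputable section

open WeierstrassCurve
open FA.CM.Seven (twoCurve)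
open scoped Classical

namespace FA.FunctionFieldMW

/-- `y² = x³ + a x² + b x + c`. -/
abbrev cubicCurve {K : Type*} [Field K] (a b c : K) : WeierstrassCurve K := ⟨0, a, 0, b, c⟩

theorem cubicCurve_equation {K : Type*} [Field K] {a b c x y : K} :
    (cubicCurve a b c).toAffine.Equation x y ↔ y ^ 2 = x ^ 3 + a * x ^ 2 + b * x + c := by
  rw [Affine.equation_iff]; simp

theorem cubicCurve_negY {K : Type*} [Field K] {a b c x y : K} :
    (cubicCurve a b c).toAffine.negY x y = -y := by
  simp [Affine.negY]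

/-- The three roots. -/
structure RootData {L : Type*} [Field L] (a b c : L) where
  /-- The roots. -/
  e : Fin 3 → L
  ha : a = -(e 0 + e 1 + e 2)
  hb : b = e 0 * e 1 + e 0 * e 2 + e 1 * e 2
  hc : c = -(e 0 * e 1 * e 2)
  inj : Function.Injective e

variable {L : Type*} [Field L] {a b c : L} (D : RootData a b c)

theorem RootData.equation {x y : L} :
    (cubicCurve a b c).toAffine.Equation x y ↔ y ^ 2 = (x - D.e 0) * (x - D.e 1) * (x - D.e 2) := by
  obtain ⟨e, rfl, rfl, rfl, he⟩ := D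
  rw [cubicCurve_equation]
  constructor <;> intro h <;> linear_combination h

theorem RootData.Δ_eq : (cubicCurve a b c).Δ =
    16 * ((D.e 0 - D.e 1) * (D.e 0 - D.e 2) * (D.e 1 - D.e 2)) ^ 2 := by
  obtain ⟨e, rfl, rfl, rfl, he⟩ := D
  simp only [WeierstrassCurve.Δ, WeierstrassCurve.b₂, WeierstrassCurve.b₄, WeierstrassCurve.b₆,
    WeierstrassCurve.b₈]
  ring

theorem RootData.ne {i j : Fin 3} (h : i ≠ j) : D.e i - D.e j ≠ 0 :=
  sub_ne_zero.2 fun e => h (D.inj e)

include D in
theorem RootData.isElliptic (h2 : (2 : L) ≠ 0) : (cubicCurve a b c).IsElliptic := by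
  rw [WeierstrassCurve.isElliptic_iff, isUnit_iff_ne_zero, D.Δ_eq,
    show (16 : L) = 2 ^ 4 by norm_num]
  exact mul_ne_zero (pow_ne_zero _ h2) (pow_ne_zero _ (mul_ne_zero (mul_ne_zero (D.ne (by decide))
    (D.ne (by decide))) (D.ne (by decide))))

/-- **Halving.** -/
theorem RootData.exists_half (h2 : (2 : L) ≠ 0) {x y : L}
    (h : (cubicCurve a b c).toAffine.Nonsingular x y) {r : Fin 3 → L}
    (hr : ∀ i, r i ^ 2 = x - D.e i) : ∃ R, 2 • R = Affine.Point.some x y h := by
  haveI := D.isElliptic h2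
  set α := r 0
  set β := r 1
  set γ := r 2
  have hα : α ^ 2 = x - D.e 0 := hr 0
  have hβ : β ^ 2 = x - D.e 1 := hr 1
  have hγ : γ ^ 2 = x - D.e 2 := hr 2
  have hab : α + β ≠ 0 := fun e => D.ne (i := 1) (j := 0) (by decide) (by
    linear_combination hβ - hα + (α - β) * e)
  have hac : α + γ ≠ 0 := fun e => D.ne (i := 2) (j := 0) (by decide) (by
    linear_combination hγ - hα + (α - γ) * e)
  have hbc : β + γ ≠ 0 := fun e => D.ne (i := 2) (j := 1) (by decide) (by
    linear_combination hγ - hβ + (β - γ) * e)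
  set x₀ := x + α * β + α * γ + β * γ with hx₀
  set y₀ := (α + β) * (α + γ) * (β + γ) with hy₀
  have hy : y₀ ≠ 0 := mul_ne_zero (mul_ne_zero hab hac) hbc
  have e1 : x₀ - D.e 0 = (α + β) * (α + γ) := by rw [hx₀]; linear_combination -hα
  have e2 : x₀ - D.e 1 = (β + α) * (β + γ) := by rw [hx₀]; linear_combination -hβ
  have e3 : x₀ - D.e 2 = (γ + α) * (γ + β) := by rw [hx₀]; linear_combination -hγ
  have hR : (cubicCurve a b c).toAffine.Nonsingular x₀ y₀ :=
    Affine.equation_iff_nonsingular.mp (D.equation.2 (by rw [hy₀, e1, e2, e3]; ring))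
  have hne : y₀ ≠ (cubicCurve a b c).toAffine.negY x₀ y₀ := by
    rw [cubicCurve_negY, ne_eq, ← sub_eq_zero, show y₀ - -y₀ = 2 * y₀ by ring]
    exact mul_ne_zero h2 hy
  have hs : (cubicCurve a b c).toAffine.slope x₀ x₀ y₀ y₀ = α + β + γ := by
    rw [Affine.slope_of_Y_ne rfl hne, div_eq_iff (sub_ne_zero.2 hne), cubicCurve_negY, hy₀]
    simp only [zero_mul, sub_zero]
    obtain ⟨e, rfl, rfl, rfl, he⟩ := D
    calc 3 * x₀ ^ 2 + 2 * -(e 0 + e 1 + e 2) * x₀ +
          (e 0 * e 1 + e 0 * e 2 + e 1 * e 2)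
        = (x₀ - e 0) * (x₀ - e 1) + (x₀ - e 0) * (x₀ - e 2) +
            (x₀ - e 1) * (x₀ - e 2) := by ring
      _ = _ := by rw [e1, e2, e3]; ring
  have hx : (cubicCurve a b c).toAffine.addX x₀ x₀ (α + β + γ) = x := by
    simp only [Affine.addX, hx₀]
    linear_combination hα + hβ + hγ - D.ha
  obtain ⟨Y, hY, hdouble⟩ : ∃ Y, ∃ hY : (cubicCurve a b c).toAffine.Nonsingular x Y,
      2 • Affine.Point.some x₀ y₀ hR = .some x Y hY := by
    have hxy : ¬(x₀ = x₀ ∧ y₀ = (cubicCurve a b c).toAffine.negY x₀ y₀) := fun e => hne e.2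
    refine ⟨(cubicCurve a b c).toAffine.addY x₀ x₀ y₀ (α + β + γ), ?_, ?_⟩
    · have := Affine.nonsingular_add hR hR hxy
      rwa [hs, hx] at this
    · rw [two_nsmul, Affine.Point.add_some hxy, Affine.Point.some.injEq]
      exact ⟨by rw [hs, hx], by rw [hs]⟩
  rcases Affine.Y_eq_of_X_eq hY.1 h.1 rfl with e | e
  · subst e; exact ⟨_, hdouble⟩
  · refine ⟨-Affine.Point.some x₀ y₀ hR, ?_⟩
    rw [neg_nsmul, hdouble, Affine.Point.neg_some, Affine.Point.some.injEq, e, Affine.negY_negY]
    exact ⟨rfl, rfl⟩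

include D in
/-- Finitely many points are killed by two. -/
theorem RootData.finite_two_torsion (h2 : (2 : L) ≠ 0) :
    Finite {Q : (cubicCurve a b c).toAffine.Point // 2 • Q = 0} := by
  let g : {Q : (cubicCurve a b c).toAffine.Point // 2 • Q = 0} → Option L := fun Q =>
    match Q.1 with
    | .zero => none
    | .some x _ _ => some x
  have hy : ∀ {x y : L} {h : (cubicCurve a b c).toAffine.Nonsingular x y},
      2 • Affine.Point.some x y h = 0 → y = 0 := by
    intro x y h e
    rw [two_nsmul, add_eq_zero_iff_eq_neg, Affine.Point.neg_some, Affine.Point.some.injEq,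
      cubicCurve_negY] at e
    exact (mul_eq_zero.1 (show (2 : L) * y = 0 by linear_combination e.2)).resolve_left h2
  have hg : Function.Injective g := by
    rintro ⟨_ | ⟨x, y, h⟩, hQ⟩ ⟨_ | ⟨x', y', h'⟩, hQ'⟩ e
    · rfl
    · simp [g] at e
    · simp [g] at e
    · obtain rfl : x = x' := by simpa [g] using e
      obtain rfl := hy hQ
      obtain rfl := hy hQ'
      rfl
  refine Finite.of_injective (fun Q => (⟨g Q, ?_⟩ :
    ↥(insert none (Finset.univ.image fun i => some (D.e i))))) fun p q e => hg (congrArg Subtype.val e)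
  obtain ⟨_ | ⟨x, y, h⟩, hQ⟩ := Q
  · simp [g]
  obtain rfl := hy hQ
  have := D.equation.1 h.1
  rw [zero_pow two_ne_zero, eq_comm, mul_eq_zero, mul_eq_zero, sub_eq_zero, sub_eq_zero,
    sub_eq_zero] at this
  rcases this with (e | e) | e <;> simp [g, e]

/-- The square class, `0` having the trivial one. -/
def sqFun (L : Type*) [Field L] (x : L) : Additive (Lˣ ⧸ (powMonoidHom 2 : Lˣ →* Lˣ).range) :=
  if h : x = 0 then 0 else Additive.ofMul ((Units.mk0 x h : Lˣ) : Lˣ ⧸ _)

theorem sqFun_of_ne {x : L} (h : x ≠ 0) :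
    sqFun L x = Additive.ofMul ((Units.mk0 x h : Lˣ) : Lˣ ⧸ _) := dif_neg h

theorem isParity_sqFun : FA.FunctionFieldRank.IsParity (sqFun L) := fun x y hx hy => by
  rw [sqFun_of_ne (mul_ne_zero hx hy), sqFun_of_ne hx, sqFun_of_ne hy, Units.mk0_mul,
    QuotientGroup.mk_mul, ofMul_mul]

theorem sqClass_add_self (u : Additive (Lˣ ⧸ (powMonoidHom 2 : Lˣ →* Lˣ).range)) : u + u = 0 := by
  obtain ⟨z, hz⟩ := QuotientGroup.mk_surjective (Additive.toMul u)
  rw [show u = Additive.ofMul (z : Lˣ ⧸ (powMonoidHom 2 : Lˣ →* Lˣ).range) by rw [hz]; rfl,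
    ← ofMul_mul, ← QuotientGroup.mk_mul, ← ofMul_one]
  exact congrArg _ ((QuotientGroup.eq_one_iff _).2 ⟨z, by rw [powMonoidHom_apply, sq]⟩)

theorem isSquare_of_sqFun {x : L} (h : x ≠ 0) (he : sqFun L x = 0) : IsSquare x := by
  rw [sqFun_of_ne h, ← ofMul_one, Additive.ofMul.apply_eq_iff_eq, QuotientGroup.eq_one_iff] at he
  obtain ⟨z, hz⟩ := he
  exact ⟨z, by rw [← sq]; simpa using (congrArg Units.val hz).symm⟩

/-- `x ↦ x + eᵢ`. -/
def RootData.shift (i : Fin 3) : VariableChange L := ⟨1, D.e i, 0, 0⟩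

theorem RootData.shift_smul (i : Fin 3) :
    D.shift i • cubicCurve a b c = twoCurve (a + 3 * D.e i) (3 * D.e i ^ 2 + 2 * a * D.e i + b) := by
  have h0 : D.e i ^ 3 + a * D.e i ^ 2 + b * D.e i + c = 0 := by
    obtain ⟨e, rfl, rfl, rfl, he⟩ := D
    fin_cases i <;> simp <;> ring
  ext <;> simp [RootData.shift, variableChange_a₁, variableChange_a₂, variableChange_a₃,
    variableChange_a₄, variableChange_a₆]
  · ring
  · linear_combination h0

theorem RootData.shift_ne (i : Fin 3) : 3 * D.e i ^ 2 + 2 * a * D.e i + b ≠ 0 := by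
  have h01 := D.ne (i := 0) (j := 1) (by decide)
  have h02 := D.ne (i := 0) (j := 2) (by decide)
  have h10 := D.ne (i := 1) (j := 0) (by decide)
  have h12 := D.ne (i := 1) (j := 2) (by decide)
  have h20 := D.ne (i := 2) (j := 0) (by decide)
  have h21 := D.ne (i := 2) (j := 1) (by decide)
  obtain ⟨e, rfl, rfl, rfl, he⟩ := D
  fin_cases i <;> simp only [Fin.zero_eta, Fin.mk_one, Fin.reduceFinMk] <;> intro h
  · exact mul_ne_zero h01 h02 (by linear_combination h)
  · exact mul_ne_zero h10 h12 (by linear_combination h)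
  · exact mul_ne_zero h20 h21 (by linear_combination h)

/-- The three classes of a point. -/
def RootData.classes (h2 : (2 : L) ≠ 0) : (cubicCurve a b c).toAffine.Point →+
    (Fin 3 → Additive (Lˣ ⧸ (powMonoidHom 2 : Lˣ →* Lˣ).range)) :=
  haveI := D.isElliptic h2
  AddMonoidHom.pi fun i =>
    haveI : (twoCurve (a + 3 * D.e i) (3 * D.e i ^ 2 + 2 * a * D.e i + b)).IsElliptic :=
      D.shift_smul i ▸ (inferInstance : (D.shift i • cubicCurve a b c).IsElliptic)
    (FA.FunctionFieldRank.classHom isParity_sqFun sqClass_add_self (D.shift_ne i)).comp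
      (FA.Frob.vcEquiv (D.shift i) (D.shift_smul i)).symm.toAddMonoidHom

theorem RootData.classes_some (h2 : (2 : L) ≠ 0) {x y : L}
    (h : (cubicCurve a b c).toAffine.Nonsingular x y) (i : Fin 3) :
    D.classes h2 (.some x y h) i =
      if x = D.e i then sqFun L (3 * D.e i ^ 2 + 2 * a * D.e i + b) else sqFun L (x - D.e i) := by
  haveI := D.isElliptic h2
  haveI : (twoCurve (a + 3 * D.e i) (3 * D.e i ^ 2 + 2 * a * D.e i + b)).IsElliptic :=
    D.shift_smul i ▸ (inferInstance : (D.shift i • cubicCurve a b c).IsElliptic)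
  have hn : (twoCurve (a + 3 * D.e i) (3 * D.e i ^ 2 + 2 * a * D.e i + b)).toAffine.Nonsingular
      (x - D.e i) y := Affine.equation_iff_nonsingular.mp ((FA.Frob.equation_vc _ (D.shift_smul i) _ _).1
        (by simpa [FA.Frob.vcX, FA.Frob.vcY, RootData.shift] using h.1))
  have hs : (FA.Frob.vcEquiv (D.shift i) (D.shift_smul i)).symm (.some x y h) =
      .some (x - D.e i) y hn := by
    rw [AddEquiv.symm_apply_eq, FA.Frob.vcEquiv_some, Affine.Point.some.injEq]
    simp [FA.Frob.vcX, FA.Frob.vcY, RootData.shift]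
  show FA.FunctionFieldRank.classFun (sqFun L) _ _
    ((FA.Frob.vcEquiv (D.shift i) (D.shift_smul i)).symm (.some x y h)) = _
  rw [hs]
  by_cases hx : x = D.e i
  · subst hx
    rw [if_pos rfl]
    exact if_pos (sub_self _)
  · rw [if_neg hx, FA.FunctionFieldRank.classFun_some (sub_ne_zero.2 hx)]

/-- **The kernel consists of the doubles.** -/
theorem RootData.exists_half_of_classes (h2 : (2 : L) ≠ 0) {P : (cubicCurve a b c).toAffine.Point}
    (hP : D.classes h2 P = 0) : ∃ R, 2 • R = P := by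
  rcases P with _ | ⟨x, y, h⟩
  · exact ⟨0, nsmul_zero 2⟩
  have hr : ∀ i, ∃ r : L, r ^ 2 = x - D.e i := fun i => by
    by_cases hx : x = D.e i
    · exact ⟨0, by rw [hx, sub_self, zero_pow two_ne_zero]⟩
    · have := congrFun hP i
      rw [D.classes_some h2 h, if_neg hx] at this
      obtain ⟨r, hr⟩ := isSquare_of_sqFun (sub_ne_zero.2 hx) this
      exact ⟨r, by rw [hr, sq]⟩
  choose r hr using hr
  exact D.exists_half h2 h hr

end FA.FunctionFieldMW
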