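import Fermat.Agent.FunctionFieldMW.SUnits
import Fermat.Agent.FunctionFieldMW.CubicCurve
import Fermat.Agent.FunctionFieldRank.Descent
import Fermat.Agent.FunctionFieldRank.MordellWeil
import Mathlib.FieldTheory.Galois.Basic
import Mathlib.FieldTheory.SplittingField.Construction

/-!
# Weak Mordell–Weil over a rational function field with finite constants

Over a field with the three roots the classes are even outside a finite set; the points over
`F(u)` that become doubles there differ by finitely many cocycles.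
-/

set_option autoImplicit false
set_option linter.unusedSectionVars false
set_option linter.style.haveILetI false

noncomputable section

open WeierstrassCurve IsDedekindDomain FunctionField
open scoped Classical

namespace FA.FunctionFieldMW

/-- A point over `K` whose image is a double modulo finitely many classes leaves finitely many
possibilities modulo doubles. -/
theorem finiteIndex_two_of_inclusion {G H V Γ : Type*} [AddCommGroup G] [AddCommGroup H]
    [AddCommGroup V] [Finite Γ] (ι : G →+ H) (hι : Function.Injective ι) (act : Γ → H →+ H)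
    (hact : ∀ σ x, act σ (ι x) = ι x) (hfix : ∀ y, (∀ σ, act σ y = y) → ∃ x, ι x = y)
    [Finite {y : H // 2 • y = 0}] (ψ : H →+ V) (hψ : ∀ y, ψ y = 0 → ∃ z, 2 • z = y)
    (himg : (Set.range ψ).Finite) :
    (nsmulAddMonoidHom (α := G) 2).range.FiniteIndex := by
  set D := (nsmulAddMonoidHom (α := G) 2).range
  haveI := himg.to_subtype
  let cls : G ⧸ D → Set.range ψ := fun q => ⟨ψ (ι q.out), _, rfl⟩
  let base : Set.range ψ → G := fun v =>
    if h : ∃ q, cls q = v then h.choose.out else 0
  have hbase : ∀ q, ψ (ι (q.out - base (cls q))) = 0 := fun q => by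
    have h : ∃ q', cls q' = cls q := ⟨q, rfl⟩
    rw [map_sub, map_sub, sub_eq_zero]
    simp only [base, dif_pos h]
    exact (congrArg Subtype.val h.choose_spec).symm
  choose R hR using fun q => hψ _ (hbase q)
  let cocycle : G ⧸ D → Γ → {y : H // 2 • y = 0} := fun q σ =>
    ⟨act σ (R q) - R q, by rw [nsmul_sub, ← map_nsmul, hR, hact, sub_self]⟩
  haveI : Finite (G ⧸ D) := Finite.of_injective (fun q => (cls q, cocycle q)) fun q q' e => by
    obtain ⟨e₁, e₂⟩ := Prod.mk.injEq .. ▸ e
    obtain ⟨x, hx⟩ := hfix (R q - R q') fun σ => by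
      have h : act σ (R q) - R q = act σ (R q') - R q' := congrArg Subtype.val (congrFun e₂ σ)
      rw [map_sub, ← sub_eq_zero, sub_sub_sub_comm, h, sub_self]
    have h2 : ι (2 • x) = ι (q.out - q'.out) := by
      rw [map_nsmul, hx, nsmul_sub, hR, hR, e₁, map_sub, map_sub, map_sub]
      abel
    rw [← QuotientAddGroup.out_eq' q, ← QuotientAddGroup.out_eq' q', QuotientAddGroup.eq]
    exact ⟨-x, by rw [nsmulAddMonoidHom_apply, smul_neg, hι h2]; abel⟩
  exact AddSubgroup.finiteIndex_of_finite_quotient

/-- **Finitely many classes.** -/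
theorem RootData.finite_range_classes (F : Type*) [Field F] [Finite F] {L : Type*} [Field L]
    [Algebra (Polynomial F) L] [Algebra (RatFunc F) L]
    [IsScalarTower (Polynomial F) (RatFunc F) L] [FiniteDimensional (RatFunc F) L]
    [Algebra.IsSeparable (RatFunc F) L] {a b c : L} (D : RootData a b c) (h2 : (2 : L) ≠ 0) :
    (Set.range (D.classes h2)).Finite := by
  let R := ringOfIntegers F L
  have hpole : ∀ i, {v : HeightOneSpectrum R | 1 < v.valuation L (D.e i)}.Finite := fun i => by
    by_cases h : D.e i = 0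
    · simp [h]
    · refine (finite_negOrd (Units.mk0 _ h)).subset fun v hv hz => ?_
      have := valuation_eq_exp v (Units.mk0 _ h)
      rw [hz, WithZero.exp_zero] at this
      exact hv.ne' this
  have hdiff : ∀ i j, {v : HeightOneSpectrum R | i ≠ j ∧ v.valuation L (D.e i - D.e j) ≠ 1}.Finite :=
    fun i j => by
    by_cases h : i = j
    · simp [h]
    · refine (finite_negOrd (Units.mk0 _ (D.ne h))).subset fun v hv hz => hv.2 ?_
      have := valuation_eq_exp v (Units.mk0 _ (D.ne h))
      rw [hz, WithZero.exp_zero] at this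
      exact this
  set S := ((Set.finite_iUnion hpole).union (Set.finite_iUnion fun i =>
    Set.finite_iUnion (hdiff i))).toFinset
  have hfin := finite_evenClasses S
  let U : Set (Additive (Lˣ ⧸ (powMonoidHom 2 : Lˣ →* Lˣ).range)) :=
    insert 0 ((Set.range fun i => sqFun L (3 * D.e i ^ 2 + 2 * a * D.e i + b)) ∪
      Additive.ofMul '' {z | ∃ x : Lˣ, (x : SqClass L) = z ∧ ∀ v, v ∉ S → Even (negOrd v x)})
  have hU : U.Finite := ((Set.finite_range _).union (hfin.image _)).insert 0
  refine (Set.Finite.pi' fun _ : Fin 3 => hU).subset ?_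
  rintro _ ⟨P, rfl⟩ i
  rcases P with _ | ⟨x, y, h⟩
  · exact Or.inl (congrFun (map_zero (D.classes h2)) i)
  rw [D.classes_some h2 h]
  by_cases hi : x = D.e i
  · rw [if_pos hi]; exact Or.inr (Or.inl ⟨i, rfl⟩)
  rw [if_neg hi]
  by_cases hall : ∃ j, x = D.e j
  · -- the other root
    obtain ⟨j, rfl⟩ := hall
    have hji : j ≠ i := fun e => hi (e ▸ rfl)
    refine Or.inr (Or.inr ⟨_, ⟨Units.mk0 _ (sub_ne_zero.2 hi), rfl, fun v hv => ?_⟩,
      (sqFun_of_ne (sub_ne_zero.2 hi)).symm⟩)
    have h1 : v.valuation L (D.e j - D.e i) = 1 := by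
      by_contra hne
      exact hv ((Set.Finite.mem_toFinset _).2
        (Or.inr (Set.mem_iUnion.2 ⟨j, Set.mem_iUnion.2 ⟨i, hji, hne⟩⟩)))
    have := valuation_eq_exp v (Units.mk0 _ (sub_ne_zero.2 hi))
    rw [Units.val_mk0, h1, ← WithZero.exp_zero, WithZero.exp_inj] at this
    exact this ▸ Even.zero
  push Not at hall
  refine Or.inr (Or.inr ⟨_, ⟨Units.mk0 _ (sub_ne_zero.2 hi), rfl, fun v hv => ?_⟩,
    (sqFun_of_ne (sub_ne_zero.2 hi)).symm⟩)
  have he : ∀ j, v.valuation L (D.e j) ≤ 1 := fun j => not_lt.1 fun hne =>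
    hv ((Set.Finite.mem_toFinset _).2 (Or.inl (Set.mem_iUnion.2 ⟨j, hne⟩)))
  have hu : ∀ j k, j ≠ k → v.valuation L (D.e j - D.e k) = 1 := fun j k hjk => by
    by_contra hne
    exact hv ((Set.Finite.mem_toFinset _).2
      (Or.inr (Set.mem_iUnion.2 ⟨j, Set.mem_iUnion.2 ⟨k, hjk, hne⟩⟩)))
  let z : Fin 3 → Lˣ := fun j => Units.mk0 _ (sub_ne_zero.2 (hall j))
  have hy : y ≠ 0 := fun e => by
    have := D.equation.1 h.1
    rw [e, zero_pow two_ne_zero] at this
    exact mul_ne_zero (mul_ne_zero (z 0).ne_zero (z 1).ne_zero) (z 2).ne_zero this.symm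
  have hsum : 2 * negOrd v (Units.mk0 y hy) = negOrd v (z 0) + negOrd v (z 1) + negOrd v (z 2) := by
    rw [← negOrd_mul, ← negOrd_mul, ← Nat.cast_two, ← negOrd_pow]
    congr 1
    exact Units.ext (by simpa [z] using D.equation.1 h.1)
  show Even (negOrd v (z i))
  by_cases hx : 1 < v.valuation L x
  · have hz : ∀ j, negOrd v (z j) = negOrd v (z i) := fun j => by
      refine WithZero.exp_inj.1 ?_
      rw [← valuation_eq_exp, ← valuation_eq_exp]
      simp only [z, Units.val_mk0]
      rw [Valuation.map_sub_eq_of_lt_left _ (lt_of_le_of_lt (he j) hx),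
        Valuation.map_sub_eq_of_lt_left _ (lt_of_le_of_lt (he i) hx)]
    rw [hz 0, hz 1, hz 2] at hsum
    exact ⟨negOrd v (Units.mk0 y hy) - negOrd v (z i), by omega⟩
  · have hle : ∀ j, negOrd v (z j) ≤ 0 := fun j => by
      rw [← WithZero.exp_le_exp, ← valuation_eq_exp, WithZero.exp_zero]
      exact (Valuation.map_sub _ _ _).trans (max_le (not_lt.1 hx) (he j))
    have hone : ∀ j, j ≠ i → negOrd v (z i) < 0 → negOrd v (z j) = 0 := fun j hj hneg => by
      refine le_antisymm (hle j) (not_lt.1 fun hneg' => ?_)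
      have hlt : ∀ k, negOrd v (z k) < 0 → v.valuation L (x - D.e k) < 1 := fun k hk => by
        have := valuation_eq_exp v (z k)
        rw [show (x - D.e k) = (z k : L) from rfl, this, ← WithZero.exp_zero]
        exact WithZero.exp_lt_exp.2 hk
      have := hu j i hj
      rw [show D.e j - D.e i = (x - D.e i) - (x - D.e j) by ring] at this
      exact (lt_of_le_of_lt (Valuation.map_sub _ _ _) (max_lt (hlt i hneg) (hlt j hneg'))).ne this
    rcases (hle i).lt_or_eq with hneg | h0
    · refine ⟨negOrd v (Units.mk0 y hy), ?_⟩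
      fin_cases i <;> simp only [Fin.zero_eta, Fin.mk_one, Fin.reduceFinMk] at hneg hone ⊢
      · have := hone 1 (by decide) hneg; have := hone 2 (by decide) hneg; omega
      · have := hone 0 (by decide) hneg; have := hone 2 (by decide) hneg; omega
      · have := hone 0 (by decide) hneg; have := hone 1 (by decide) hneg; omega
    · exact h0 ▸ Even.zero

end FA.FunctionFieldMW
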