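import Fermat.Agent.FunctionFieldMW.Descent
import Fermat.Agent.MordellWeil.Structure
import Mathlib.Algebra.CubicDiscriminant

/-!
# The theorem of Mordell and Weil over `F(u)`

Complete the square, pass to the splitting field of the cubic for the weak theorem and descend by
the heights.
-/

set_option autoImplicit false
set_option linter.unusedSectionVars false
set_option linter.style.haveILetI false

noncomputable section

open WeierstrassCurve Polynomial
open scoped Classical

namespace FA.FunctionFieldMW

variable {F : Type*} [Field F] [Finite F]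

theorem two_ne_zero_of_constants (h2 : (2 : F) ≠ 0) : (2 : RatFunc F) ≠ 0 := fun e =>
  h2 ((algebraMap F (RatFunc F)).injective (by rw [map_ofNat, map_zero]; exact e))

/-- The cubic of an elliptic curve has simple roots. -/
theorem separable_cubic {k : Type*} [Field k] (a b c : k)
    [(cubicCurve a b c).IsElliptic] : (⟨1, a, b, c⟩ : Cubic k).toPoly.Separable := by
  set P : Cubic k := ⟨1, a, b, c⟩
  have ha : P.a ≠ 0 := one_ne_zero
  set φ := algebraMap k P.toPoly.SplittingField
  have hsplit : (P.toPoly.map φ).Splits := SplittingField.splits P.toPoly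
  have hdisc : P.discr ≠ 0 := by
    have h := (cubicCurve a b c).isUnit_Δ
    rw [isUnit_iff_ne_zero, show (cubicCurve a b c).Δ = 16 * P.discr by
      simp only [WeierstrassCurve.Δ, WeierstrassCurve.b₂, WeierstrassCurve.b₄, WeierstrassCurve.b₆,
        WeierstrassCurve.b₈, Cubic.discr, P]
      ring] at h
    exact right_ne_zero_of_mul h
  rw [← separable_map φ, ← nodup_roots_iff_of_splits
    (Polynomial.map_ne_zero_iff φ.injective |>.2 (Cubic.ne_zero_of_a_ne_zero ha)) hsplit,
    ← Cubic.map_roots]
  exact (Cubic.discr_ne_zero_iff_roots_nodup ha hsplit).1 hdisc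

/-- Weak Mordell–Weil for a cubic over any field of characteristic `≠ 2` from the finiteness of the
classes in its splitting field. -/
theorem finiteIndex_cubicCurve_of {k : Type*} [Field k] (h2 : (2 : k) ≠ 0) (a b c : k)
    [(cubicCurve a b c).IsElliptic]
    (hfin : ∀ (D : RootData (algebraMap k (⟨1, a, b, c⟩ : Cubic k).toPoly.SplittingField a)
        (algebraMap k _ b) (algebraMap k _ c)) (h : _), (Set.range (D.classes h)).Finite) :
    (nsmulAddMonoidHom (α := (cubicCurve a b c).toAffine.Point) 2).range.FiniteIndex := by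
  set P : Cubic k := ⟨1, a, b, c⟩
  have ha : P.a ≠ 0 := one_ne_zero
  set L := P.toPoly.SplittingField
  set φ := algebraMap k L
  have hsplit : (P.toPoly.map φ).Splits := SplittingField.splits P.toPoly
  obtain ⟨x, y, z, h3⟩ := (Cubic.splits_iff_roots_eq_three ha).1 hsplit
  have hdisc : P.discr ≠ 0 := by
    have h := (cubicCurve a b c).isUnit_Δ
    rw [isUnit_iff_ne_zero, show (cubicCurve a b c).Δ = 16 * P.discr by
      simp only [WeierstrassCurve.Δ, WeierstrassCurve.b₂, WeierstrassCurve.b₄, WeierstrassCurve.b₆,
        WeierstrassCurve.b₈, Cubic.discr, P]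
      ring] at h
    exact right_ne_zero_of_mul h
  obtain ⟨hxy, hxz, hyz⟩ := (Cubic.discr_ne_zero_iff_roots_ne ha h3).1 hdisc
  have hsep : P.toPoly.Separable := separable_cubic a b c
  haveI : IsGalois k L := IsGalois.of_separable_splitting_field hsep
  have hmap : (cubicCurve a b c).map φ = cubicCurve (φ a) (φ b) (φ c) := by
    simp [cubicCurve, WeierstrassCurve.map]
  let D : RootData (φ a) (φ b) (φ c) :=
    { e := ![x, y, z]
      ha := by simpa [P] using Cubic.b_eq_three_roots ha h3
      hb := by simpa [P] using Cubic.c_eq_three_roots ha h3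
      hc := by simpa [P] using Cubic.d_eq_three_roots ha h3
      inj := fun i j h => by
        fin_cases i <;> fin_cases j <;>
          first
            | rfl
            | exact absurd h hxy
            | exact absurd h.symm hxy
            | exact absurd h hxz
            | exact absurd h.symm hxz
            | exact absurd h hyz
            | exact absurd h.symm hyz }
  have hL2 : (2 : L) ≠ 0 := fun e => h2 (φ.injective (by rw [map_ofNat, map_zero]; exact e))
  haveI := D.finite_two_torsion hL2
  let σmap : (L ≃ₐ[k] L) →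
      (cubicCurve (φ a) (φ b) (φ c)).toAffine.Point →+ (cubicCurve (φ a) (φ b) (φ c)).toAffine.Point :=
    fun σ => FA.FunctionFieldRank.pointMap (σ.toRingEquiv.toRingHom)
      (by simp [cubicCurve, WeierstrassCurve.map, φ])
  refine finiteIndex_two_of_inclusion
    (V := Fin 3 → Additive (Lˣ ⧸ (powMonoidHom 2 : Lˣ →* Lˣ).range))
    (FA.FunctionFieldRank.pointMap φ hmap)
    (FA.FunctionFieldRank.pointMap_injective _ _) σmap (fun σ Q => ?_) (fun Q hQ => ?_)
    (D.classes hL2) (fun Q => D.exists_half_of_classes hL2) (hfin D hL2)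
  · rcases Q with _ | ⟨u, v, h⟩
    · exact rfl
    · simp [σmap, FA.FunctionFieldRank.pointMap_some, φ]
  · rcases Q with _ | ⟨u, v, h⟩
    · exact ⟨0, map_zero _⟩
    have hfix : ∀ σ : L ≃ₐ[k] L, σ u = u ∧ σ v = v := fun σ => by
      simpa [σmap, FA.FunctionFieldRank.pointMap_some] using hQ σ
    obtain ⟨u₀, hu⟩ := IntermediateField.mem_bot.1
      ((IsGalois.mem_bot_iff_fixed u).2 fun σ => (hfix σ).1)
    obtain ⟨v₀, hv⟩ := IntermediateField.mem_bot.1
      ((IsGalois.mem_bot_iff_fixed v).2 fun σ => (hfix σ).2)
    have huv : (cubicCurve a b c).toAffine.Nonsingular u₀ v₀ := by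
      rw [← Affine.map_nonsingular _ (f := φ) φ.injective]
      show ((cubicCurve a b c).map φ).toAffine.Nonsingular _ _
      rw [hmap, show φ u₀ = u from hu, show φ v₀ = v from hv]
      exact h
    exact ⟨.some u₀ v₀ huv, by
      rw [FA.FunctionFieldRank.pointMap_some, Affine.Point.some.injEq]; exact ⟨hu, hv⟩⟩

/-- Weak Mordell–Weil for a cubic. -/
theorem finiteIndex_cubicCurve (h2 : (2 : F) ≠ 0) (a b c : RatFunc F)
    [(cubicCurve a b c).IsElliptic] :
    (nsmulAddMonoidHom (α := (cubicCurve a b c).toAffine.Point) 2).range.FiniteIndex :=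
  haveI : IsGalois (RatFunc F) (⟨1, a, b, c⟩ : Cubic (RatFunc F)).toPoly.SplittingField :=
    IsGalois.of_separable_splitting_field (separable_cubic a b c)
  finiteIndex_cubicCurve_of (two_ne_zero_of_constants h2) a b c fun D h => D.finite_range_classes F h

/-- **Mordell–Weil over `F(u)`.** -/
theorem fg_point (h2 : (2 : F) ≠ 0) (E : WeierstrassCurve (RatFunc F)) [E.IsElliptic] :
    AddGroup.FG E.toAffine.Point := by
  have h2' := two_ne_zero_of_constants h2
  set C : VariableChange (RatFunc F) := ⟨1, 0, -E.a₁ / 2, -E.a₃ / 2⟩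
  have hC : C • E = cubicCurve (C • E).a₂ (C • E).a₄ (C • E).a₆ := by
    ext <;> simp [C, variableChange_a₁, variableChange_a₃]
    · field_simp; ring
    · field_simp; ring
  haveI : (cubicCurve (C • E).a₂ (C • E).a₄ (C • E).a₆).IsElliptic :=
    hC ▸ (inferInstance : (C • E).IsElliptic)
  haveI := FA.FunctionFieldRank.fg_of_finiteIndex_two (finiteIndex_cubicCurve h2
    (C • E).a₂ (C • E).a₄ (C • E).a₆)
  exact AddGroup.fg_of_surjective (f := (FA.Frob.vcEquiv C hC).toAddMonoidHom)
    (FA.Frob.vcEquiv C hC).surjective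

end FA.FunctionFieldMW
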