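import Mathlib.RingTheory.DedekindDomain.SelmerGroup
import Mathlib.RingTheory.DedekindDomain.Factorization
import Mathlib.RingTheory.ClassGroup.Basic

/-!
# Classes with even orders in the fraction field of a Dedekind domain with finite class group

Outside a finite set of primes that carries every ideal class each prime is the exact divisor of
an element, so up to squares an element with even orders there is a unit there.
-/

set_option autoImplicit false
set_option linter.unusedSectionVars false
set_option linter.style.haveILetI false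

noncomputable section

open IsDedekindDomain WithZero
open scoped Classical nonZeroDivisors

namespace FA.FunctionFieldMW

variable {R : Type*} [CommRing R] [IsDedekindDomain R] {L : Type*} [Field L] [Algebra R L]
  [IsFractionRing R L]

/-- The units of a field modulo squares. -/
abbrev SqClass (L : Type*) [Field L] := Lˣ ⧸ (powMonoidHom 2 : Lˣ →* Lˣ).range

/-- The exponent of a prime in an ideal. -/
def expIdeal (v : HeightOneSpectrum R) (I : Ideal R) : ℤ :=
  ((Associates.mk v.asIdeal).count (Associates.mk I).factors : ℤ)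

theorem expIdeal_mul (v : HeightOneSpectrum R) {I J : Ideal R} (hI : I ≠ 0) (hJ : J ≠ 0) :
    expIdeal v (I * J) = expIdeal v I + expIdeal v J := by
  rw [expIdeal, ← Associates.mk_mul_mk, Associates.count_mul (Associates.mk_ne_zero.2 hI)
    (Associates.mk_ne_zero.2 hJ) v.associates_irreducible, Nat.cast_add]
  rfl

theorem expIdeal_self (v : HeightOneSpectrum R) : expIdeal v v.asIdeal = 1 := by
  rw [expIdeal, Associates.count_self v.associates_irreducible, Nat.cast_one]

theorem expIdeal_eq_zero_of_ne {v w : HeightOneSpectrum R} (h : v ≠ w) :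
    expIdeal v w.asIdeal = 0 := by
  rw [expIdeal, Associates.count_eq_zero_of_ne v.associates_irreducible w.associates_irreducible
    fun e => h (HeightOneSpectrum.ext (associated_iff_eq.1 (Associates.mk_eq_mk_iff_associated.1 e))),
    Nat.cast_zero]

theorem finite_expIdeal {I : Ideal R} (hI : I ≠ 0) :
    {v : HeightOneSpectrum R | expIdeal v I ≠ 0}.Finite :=
  (Ideal.finite_factors hI).subset fun v hv => by
    simp only [expIdeal, Set.mem_ofPred_eq, Nat.cast_ne_zero] at hv
    rw [Set.mem_ofPred_eq, ← Associates.count_ne_zero_iff_dvd hI v.irreducible]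
    exact hv

/-- The valuation exponent of a unit of the field, the order with the sign reversed. -/
def negOrd (v : HeightOneSpectrum R) (x : Lˣ) : ℤ :=
  Multiplicative.toAdd (v.valuationOfNeZero x)

theorem negOrd_mul (v : HeightOneSpectrum R) (x y : Lˣ) :
    negOrd v (x * y) = negOrd v x + negOrd v y := by simp [negOrd]

theorem negOrd_pow (v : HeightOneSpectrum R) (x : Lˣ) (n : ℕ) :
    negOrd v (x ^ n) = n * negOrd v x := by simp [negOrd]

theorem negOrd_zpow (v : HeightOneSpectrum R) (x : Lˣ) (n : ℤ) :
    negOrd v (x ^ n) = n * negOrd v x := by simp [negOrd]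

theorem valuation_eq_exp (v : HeightOneSpectrum R) (x : Lˣ) :
    v.valuation L (x : L) = WithZero.exp (negOrd v x) := by
  rw [← HeightOneSpectrum.valuationOfNeZero_eq]; rfl

theorem negOrd_algebraMap (v : HeightOneSpectrum R) {x : Lˣ} {r : R} (hr : r ≠ 0)
    (h : algebraMap R L r = x) : negOrd v x = -expIdeal v (Ideal.span {r}) := by
  have h1 := valuation_eq_exp v x
  rw [← h, HeightOneSpectrum.valuation_of_algebraMap, HeightOneSpectrum.intValuation_if_neg _ hr]
    at h1
  exact (WithZero.exp_inj.1 h1).symm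

theorem finite_negOrd (x : Lˣ) : {v : HeightOneSpectrum R | negOrd v x ≠ 0}.Finite := by
  obtain ⟨a, b, hb, h⟩ := IsFractionRing.div_surjective (A := R) (x : L)
  have hb0 := nonZeroDivisors.ne_zero hb
  have hbL : algebraMap R L b ≠ 0 := fun e => hb0 (IsFractionRing.injective R L (by simpa using e))
  have haL : algebraMap R L a ≠ 0 := fun e => x.ne_zero (by rw [← h, e, zero_div])
  have ha0 : a ≠ 0 := fun e => haL (by rw [e, map_zero])
  refine ((finite_expIdeal (Ideal.span_singleton_eq_bot.not.2 ha0)).union
    (finite_expIdeal (Ideal.span_singleton_eq_bot.not.2 hb0))).subset fun v hv => ?_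
  have hx : x = Units.mk0 _ haL * (Units.mk0 _ hbL)⁻¹ :=
    Units.ext (by simp [← h, div_eq_mul_inv])
  by_contra hc
  simp only [Set.mem_union, Set.mem_ofPred_eq, not_or, not_not] at hc
  refine hv ?_
  rw [hx, negOrd_mul, negOrd_algebraMap v ha0 rfl, hc.1, neg_zero, zero_add, ← zpow_neg_one,
    negOrd_zpow, negOrd_algebraMap v hb0 rfl, hc.2]
  simp

/-- Primes that carry all ideal classes leave for each other prime an element of exact order. -/
theorem exists_finite_negOrd [Fintype (ClassGroup R)] :
    ∃ T : Finset (HeightOneSpectrum R), ∀ v, v ∉ T → ∃ g : Lˣ, ∀ w, w ∉ T →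
      negOrd w g = if w = v then 1 else 0 := by
  choose J hJ using fun c : ClassGroup R => ClassGroup.mk0_surjective c
  have hne : ∀ c, (J c : Ideal R) ≠ 0 := fun c => nonZeroDivisors.ne_zero (J c).2
  refine ⟨Finset.univ.biUnion fun c => (finite_expIdeal (hne c)).toFinset, fun v hv => ?_⟩
  let V : (Ideal R)⁰ := ⟨v.asIdeal, mem_nonZeroDivisors_of_ne_zero v.ne_bot⟩
  obtain ⟨a, b, ha, hb, h⟩ := ClassGroup.mk0_eq_mk0_iff.1
    (show ClassGroup.mk0 V = ClassGroup.mk0 (J (ClassGroup.mk0 V)) from (hJ _).symm)
  have haL : algebraMap R L a ≠ 0 := fun e => ha (IsFractionRing.injective R L (by simpa using e))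
  have hbL : algebraMap R L b ≠ 0 := fun e => hb (IsFractionRing.injective R L (by simpa using e))
  refine ⟨(Units.mk0 _ hbL)⁻¹ * Units.mk0 _ haL ^ 1, fun w hw => ?_⟩
  have h' := congrArg (expIdeal w) h
  rw [expIdeal_mul w (Ideal.span_singleton_eq_bot.not.2 ha) v.ne_bot,
    expIdeal_mul w (Ideal.span_singleton_eq_bot.not.2 hb) (hne _)] at h'
  have hJ0 : expIdeal w (J (ClassGroup.mk0 V) : Ideal R) = 0 := by
    simp only [Finset.mem_biUnion, Finset.mem_univ, true_and, Set.Finite.mem_toFinset,
      Set.mem_ofPred_eq, not_exists, not_not] at hw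
    exact hw _
  rw [negOrd_mul, ← zpow_neg_one, negOrd_zpow, negOrd_pow, negOrd_algebraMap w ha (x := Units.mk0 _ haL) rfl,
    negOrd_algebraMap w hb (x := Units.mk0 _ hbL) rfl]
  by_cases e : w = v
  · subst e
    rw [expIdeal_self, hJ0] at h'
    rw [if_pos rfl]
    omega
  · rw [show expIdeal w (V : Ideal R) = 0 from expIdeal_eq_zero_of_ne e, hJ0] at h'
    rw [if_neg e]
    omega

/-- **Reduction to units**: up to squares, even orders outside `T` mean no orders outside `T`. -/
theorem exists_unit_class {T : Finset (HeightOneSpectrum R)}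
    (hT : ∀ v, v ∉ T → ∃ g : Lˣ, ∀ w, w ∉ T → negOrd w g = if w = v then 1 else 0) {x : Lˣ}
    (hx : ∀ v, v ∉ T → Even (negOrd v x)) :
    ∃ t : Lˣ, (∀ v, v ∉ T → negOrd v t = 0) ∧ (t : SqClass L) = (x : SqClass L) := by
  choose g hg using hT
  set S := (finite_negOrd (R := R) x).toFinset.filter (· ∉ T)
  let y : Lˣ := ∏ v : S, g v.1 (Finset.mem_filter.1 v.2).2 ^ (negOrd v.1 x / 2)
  have hord : ∀ w, w ∉ T → negOrd w y = negOrd w x / 2 := fun w hw => by
    have hsum : negOrd w y =
        ∑ v : S, negOrd v.1 x / 2 * if w = v.1 then 1 else 0 := by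
      simp only [y, negOrd, map_prod, toAdd_prod]
      refine Finset.sum_congr rfl fun v _ => ?_
      rw [map_zpow, toAdd_zpow, smul_eq_mul]
      exact congrArg _ (hg v.1 _ w hw)
    rw [hsum, Finset.sum_coe_sort S (fun v => negOrd v x / 2 * if w = v then 1 else 0)]
    simp only [mul_ite, mul_one, mul_zero, Finset.sum_ite_eq]
    by_cases h : negOrd w x = 0
    · simp [h]
    · rw [if_pos (show w ∈ S from Finset.mem_filter.2 ⟨(Set.Finite.mem_toFinset _).2 h, hw⟩)]
  refine ⟨x * (y ^ 2)⁻¹, fun v hv => ?_, ?_⟩
  · rw [negOrd_mul, ← zpow_neg_one, negOrd_zpow, negOrd_pow, hord v hv]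
    obtain ⟨k, hk⟩ := hx v hv
    omega
  · rw [QuotientGroup.eq]
    exact ⟨y, by rw [powMonoidHom_apply, mul_inv_rev, inv_inv, mul_assoc, inv_mul_cancel, mul_one]⟩

end FA.FunctionFieldMW
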