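import Fermat.Agent.FunctionFieldMW.Orders
import Fermat.Agent.FunctionFieldMW.Constants
import Mathlib.NumberTheory.ClassNumber.FunctionField
import Mathlib.RingTheory.Valuation.Integral
import Mathlib.GroupTheory.FiniteAbelian.Basic
import Mathlib.RingTheory.Noetherian.Basic

/-!
# `S`-units and `S`-classes modulo squares in a function field over a finite field

The orders at `S` and at the places over infinity send the `S`-units to a finitely generated
group with finite kernel, so their classes modulo squares are finitely many; with the finite class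
group this bounds all classes with even orders outside `S`.
-/

set_option autoImplicit false
set_option linter.unusedSectionVars false
set_option linter.style.haveILetI false

noncomputable section

open Polynomial IsDedekindDomain FunctionField
open scoped Classical nonZeroDivisors

namespace FA.FunctionFieldMW

variable {F : Type*} [Field F] [Finite F] {L : Type*} [Field L] [Algebra F[X] L]
  [Algebra (RatFunc F) L] [IsScalarTower F[X] (RatFunc F) L] [FiniteDimensional (RatFunc F) L]
  [Algebra.IsSeparable (RatFunc F) L]

/-- Integrality from the orders. -/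
theorem isIntegral_of_negOrd {M : Type*} [Field M] [Algebra F[X] M] [Algebra (RatFunc F) M]
    [IsScalarTower F[X] (RatFunc F) M] [FiniteDimensional (RatFunc F) M]
    [Algebra.IsSeparable (RatFunc F) M] (x : Mˣ)
    (h : ∀ v : HeightOneSpectrum (ringOfIntegers F M), negOrd v x ≤ 0) :
    IsIntegral F[X] (x : M) := by
  obtain ⟨r, hr⟩ := HeightOneSpectrum.mem_integers_of_valuation_le_one (R := ringOfIntegers F M) M (x : M)
    fun v => by rw [valuation_eq_exp, ← WithZero.exp_zero, WithZero.exp_le_exp]; exact h v
  rw [← hr]
  exact r.2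

/-- An integral element has valuation at most one where the scalars do. -/
theorem valuation_le_one_of_isIntegral {A M Γ : Type*} [CommRing A] [CommRing M] [Algebra A M]
    [LinearOrderedCommGroupWithZero Γ] (w : Valuation M Γ) (hA : ∀ a, w (algebraMap A M a) ≤ 1)
    {x : M} (hx : IsIntegral A x) : w x ≤ 1 := by
  obtain ⟨g, hg, he⟩ := hx
  refine (Valuation.integer.integers w).mem_of_integral ⟨g.map ((algebraMap A M).codRestrict
    w.integer fun a => hA a), hg.map _, ?_⟩
  rw [Polynomial.eval₂_map]
  exact he

/-- The places of the twist over `u = ∞`. -/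
def infPlaces : Set (HeightOneSpectrum (ringOfIntegers F (Twisted F L))) :=
  {w | algebraMap F[X] _ X ∈ w.asIdeal}

theorem finite_infPlaces : (infPlaces (F := F) (L := L)).Finite := by
  have h0 : algebraMap F[X] (ringOfIntegers F (Twisted F L)) X ≠ 0 := fun e =>
    X_ne_zero (ringOfIntegers.algebraMap_injective F (Twisted F L) (by rw [e, map_zero]))
  exact (Ideal.finite_factors (Ideal.span_singleton_eq_bot.not.2 h0)).subset fun w hw =>
    Ideal.dvd_iff_le.2 ((Ideal.span_singleton_le_iff_mem _).2 hw)

/-- An element integral over `F[u]` has no pole off infinity in the twist. -/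
theorem negOrd_twist_le {x : Lˣ} (hx : IsIntegral F[X] (x : L))
    {w : HeightOneSpectrum (ringOfIntegers F (Twisted F L))} (hw : w ∉ infPlaces) :
    negOrd w (Units.map (tw (F := F) (L := L)).toMonoidHom x) ≤ 0 := by
  set ν := w.valuation (Twisted F L) with hν
  let f : L →+* Twisted F L := (tw (F := F) (L := L)).toRingHom
  have hr : ∀ g : F[X], ν (algebraMap F[X] (Twisted F L) g) ≤ 1 := fun g => by
    rw [IsScalarTower.algebraMap_apply F[X] (ringOfIntegers F (Twisted F L)) (Twisted F L)]
    exact HeightOneSpectrum.valuation_le_one w _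
  have hX : ν (algebraMap F[X] (Twisted F L) X) = 1 := by
    refine le_antisymm (hr X) (not_lt.1 fun e => hw ?_)
    rw [IsScalarTower.algebraMap_apply F[X] (ringOfIntegers F (Twisted F L)) (Twisted F L), hν,
      HeightOneSpectrum.valuation_lt_one_iff_mem] at e
    exact e
  have hA : ∀ g : F[X], (ν.comap f) (algebraMap F[X] L g) ≤ 1 := fun g => by
    induction g using Polynomial.induction_on' with
    | add a b ha hb =>
      rw [map_add]
      exact (Valuation.map_add _ _ _).trans (max_le ha hb)
    | monomial n a =>
      rw [← Polynomial.C_mul_X_pow_eq_monomial, map_mul, map_pow, map_mul, map_pow]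
      refine mul_le_one' ?_ (pow_le_one' ?_ n)
      · have hC : f (algebraMap F[X] L (Polynomial.C a)) =
            algebraMap F[X] (Twisted F L) (Polynomial.C a) := by
          show algebraMap F[X] L (Polynomial.C a) =
            algebraMap (RatFunc F) L (flipHom F (algebraMap F[X] (RatFunc F) (Polynomial.C a)))
          rw [flipHom_algebraMap, Polynomial.aeval_C,
            IsScalarTower.algebraMap_apply F[X] (RatFunc F) L]
          rfl
        rw [Valuation.comap_apply, hC]
        exact hr _
      · have hX' : f (algebraMap F[X] L X) = (algebraMap F[X] (Twisted F L) X)⁻¹ := by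
          show algebraMap F[X] L X =
            (algebraMap (RatFunc F) L (flipHom F (algebraMap F[X] (RatFunc F) X)))⁻¹
          rw [flipHom_algebraMap, Polynomial.aeval_X, map_inv₀, inv_inv,
            IsScalarTower.algebraMap_apply F[X] (RatFunc F) L, RatFunc.algebraMap_X]
        rw [Valuation.comap_apply, hX', map_inv₀, hX, inv_one]
  have h := valuation_le_one_of_isIntegral (ν.comap f) hA hx
  rw [Valuation.comap_apply, ← WithZero.exp_zero] at h
  rw [← WithZero.exp_le_exp, ← valuation_eq_exp]
  exact h

variable (T : Finset (HeightOneSpectrum (ringOfIntegers F L)))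

/-- The `T`-units of the field. -/
def tUnits : Subgroup Lˣ where
  carrier := {x | ∀ v, v ∉ T → negOrd v x = 0}
  one_mem' v _ := by simp [negOrd]
  mul_mem' hx hy v hv := by rw [negOrd_mul, hx v hv, hy v hv, add_zero]
  inv_mem' hx v hv := by rw [← zpow_neg_one, negOrd_zpow, hx v hv, mul_zero]

/-- The orders at `T` and over infinity. -/
def tOrders : Additive (tUnits T) →+
    ({v // v ∈ T} ⊕ {w // w ∈ (finite_infPlaces (F := F) (L := L)).toFinset} → ℤ) :=
  AddMonoidHom.mk' (fun x i => match i with
    | .inl v => negOrd v.1 ((Additive.toMul x : tUnits T) : Lˣ)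
    | .inr w => negOrd w.1 (Units.map (tw (F := F) (L := L)).toMonoidHom
        ((Additive.toMul x : tUnits T) : Lˣ))) fun x y => funext fun i => by
    rcases i with v | w <;> simp [negOrd_mul]

theorem finite_ker_tOrders : Finite (tOrders T).ker := by
  have hfin := finite_integral_both (F := F) (L := L)
  haveI := hfin.to_subtype
  have hint : ∀ z : (tOrders T).ker,
      IsIntegral F[X] (((Additive.toMul z.1 : tUnits T) : Lˣ) : L) ∧
        IsIntegral F[X] (tw (F := F) (((Additive.toMul z.1 : tUnits T) : Lˣ) : L)) := fun z => by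
    have h0 : ∀ i, tOrders T z.1 i = 0 := congrFun (AddMonoidHom.mem_ker.1 z.2)
    have h1 : IsIntegral F[X] (((Additive.toMul z.1 : tUnits T) : Lˣ) : L) :=
      isIntegral_of_negOrd _ fun v => by
        by_cases hv : v ∈ T
        · exact (h0 (.inl ⟨v, hv⟩)).le
        · exact ((Additive.toMul z.1 : tUnits T).2 v hv).le
    refine ⟨h1, isIntegral_of_negOrd (Units.map (tw (F := F) (L := L)).toMonoidHom
      ((Additive.toMul z.1 : tUnits T) : Lˣ)) fun w => ?_⟩
    by_cases hw : w ∈ infPlaces
    · exact (h0 (.inr ⟨w, (Set.Finite.mem_toFinset _).2 hw⟩)).le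
    · exact negOrd_twist_le h1 hw
  exact Finite.of_injective (fun z => (⟨_, hint z⟩ : {x : L | IsIntegral F[X] x ∧
    IsIntegral F[X] (tw (F := F) x)})) fun z z' e => Subtype.ext (Subtype.ext (Units.ext
      (congrArg Subtype.val e)))

/-- **The `T`-units are finitely generated.** -/
theorem fg_tUnits : (tUnits T).FG := by
  set φ := tOrders T
  haveI := finite_ker_tOrders T
  haveI : AddGroup.FG φ.range := Module.Finite.iff_addGroup_fg.1
    (Module.Finite.iff_fg.2 (IsNoetherian.noetherian φ.range.toIntSubmodule))
  obtain ⟨s, hs⟩ := (AddGroup.fg_iff.1 (inferInstance : AddGroup.FG φ.range))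
  choose l hl using fun y : s => (y.1 : φ.range).2
  haveI : Finite s := hs.2.to_subtype
  rw [← Group.fg_iff_subgroup_fg]
  haveI : AddGroup.FG (Additive (tUnits T)) := AddGroup.fg_iff.2
    ⟨Set.range l ∪ (φ.ker : Set _), eq_top_iff.2 fun x _ => ?_,
      (Set.finite_range l).union (Set.toFinite _)⟩
  · exact GroupFG.iff_add_fg.2 inferInstance
  · set H := AddSubgroup.closure (Set.range l ∪ (φ.ker : Set (Additive (tUnits T))))
    have hy : ∀ y : φ.range, (y : _ → ℤ) ∈ H.map φ := fun y => by
      have hy' : y ∈ AddSubgroup.closure s := by rw [hs.1]; trivial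
      induction hy' using AddSubgroup.closure_induction with
      | mem y hy => exact ⟨l ⟨y, hy⟩, AddSubgroup.subset_closure (Or.inl ⟨_, rfl⟩), hl ⟨y, hy⟩⟩
      | zero => exact zero_mem _
      | add a b _ _ ha hb => exact add_mem ha hb
      | neg a _ ha => exact neg_mem ha
    obtain ⟨z, hz, hzx⟩ := hy ⟨φ x, x, rfl⟩
    have : x - z ∈ φ.ker := by rw [AddMonoidHom.mem_ker, map_sub, hzx, sub_self]
    simpa using add_mem (AddSubgroup.subset_closure (Or.inr this) : x - z ∈ H) hz

/-- **Finiteness of the classes with even orders outside a finite set.** -/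
theorem finite_evenClasses (S : Finset (HeightOneSpectrum (ringOfIntegers F L))) :
    {c : SqClass L | ∃ x : Lˣ, (x : SqClass L) = c ∧ ∀ v, v ∉ S → Even (negOrd v x)}.Finite := by
  haveI := Fintype.ofFinite F
  obtain ⟨T, hT⟩ := exists_finite_negOrd (R := ringOfIntegers F L) (L := L)
  have hT' : ∀ v, v ∉ T ∪ S → ∃ g : Lˣ, ∀ w, w ∉ T ∪ S → negOrd w g = if w = v then 1 else 0 :=
    fun v hv => (hT v fun h => hv (Finset.mem_union_left _ h)).imp fun g hg w hw =>
      hg w fun h => hw (Finset.mem_union_left _ h)
  set U := (tUnits (T ∪ S)).map (QuotientGroup.mk' (powMonoidHom 2 : Lˣ →* Lˣ).range)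
  haveI : Group.FG (tUnits (T ∪ S)) := (Group.fg_iff_subgroup_fg _).2 (fg_tUnits (T ∪ S))
  haveI : Group.FG U := Group.fg_of_surjective
    (f := (QuotientGroup.mk' (powMonoidHom 2 : Lˣ →* Lˣ).range).subgroupMap (tUnits (T ∪ S)))
    (MonoidHom.subgroupMap_surjective _ _)
  haveI : Finite U := CommGroup.finite_of_fg_isMulTorsion U fun c => isOfFinOrder_iff_pow_eq_one.2
    ⟨2, two_pos, Subtype.ext (by
      obtain ⟨y, -, hy⟩ := c.2
      rw [SubmonoidClass.coe_pow, ← hy, ← map_pow, OneMemClass.coe_one]
      exact (QuotientGroup.eq_one_iff _).2 ⟨y, rfl⟩)⟩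
  refine (Set.toFinite (U : Set (SqClass L))).subset ?_
  rintro _ ⟨x, rfl, hx⟩
  obtain ⟨t, ht, htx⟩ := exists_unit_class hT' fun v hv => hx v fun h =>
    hv (Finset.mem_union_right _ h)
  exact ⟨t, ht, htx⟩

end FA.FunctionFieldMW
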